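import Fermat.Agent.S14.Thaine.Units.NotPow
import Fermat.Agent.S14.Thaine.Units.Eigen
import Fermat.Agent.S14.Thaine.Units.Transfer
import Fermat.Agent.S14.Thaine.Units.Minkowski

/-!
# Route T, block `Units` — integration check (helper9): assembly of `exists_decomp`

`exists_decomp_of_lift` is the statement of `Units.exists_decomp` (file `Thaine/Units/Step.lean`)
with the arithmetic lemma `Units.exists_lift_not_sq_dvd` passed as a hypothesis (`hlift`), so that
this file does not import `Units/Step.lean` and can be imported by it: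

  `exact UnitsC9.exists_decomp_of_lift p K hp5 ε heig
     (fun c₀ hc₀ => exists_lift_not_sq_dvd p Fact.out _ (by omega) (by omega) c₀ hc₀)`

It is assembled from the black boxes `Units.exists_gal_generator`, `Units.norm_mem_torsion`
(Places), `Units.exists_minkowski_unit` (Minkowski), `Units.lemmaX_mul` (Transfer),
`Units.uPrime_eigen` (Eigen), `Units.uPrime_not_torsion_mul_pow` (NotPow), `Units.isUnit_uPrime`
(UPrime), `Units.galU_pow_apply` (Defs), exactly as they are stated on main.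
-/

set_option autoImplicit false

namespace Fermat.Agent.S14.Thaine.UnitsC9

open NumberField Fermat.Agent.S14.Thaine.Units

/-- From an eigen-relation in `K` to an eigen-relation in the unit group, with the exponent
`c₀` replaced by `c ∈ {c₀, c₀ + p}`. -/
theorem eigen_units (K : Type*) [Field K] [NumberField K] (γ : K ≃ₐ[ℚ] K) (p c₀ c : ℕ)
    (hc : c = c₀ ∨ c = c₀ + p) (e : (𝓞 K)ˣ)
    (h : ∃ w : (𝓞 K)ˣ, γ ((e : 𝓞 K) : K) = ((e : 𝓞 K) : K) ^ c₀ * ((w : 𝓞 K) : K) ^ p) :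
    ∃ w t : (𝓞 K)ˣ, t ∈ NumberField.Units.torsion K ∧
      (galU K γ).toMonoidHom e = e ^ c * w ^ p * t := by
  obtain ⟨w, hw⟩ := h
  have h0 : galU K γ e = e ^ c₀ * w ^ p := by
    apply _root_.Units.ext
    apply RingOfIntegers.ext
    rw [coe_galU, hw]
    simp
  rcases hc with rfl | rfl
  · exact ⟨w, 1, one_mem _, by rw [mul_one]; exact h0⟩
  · refine ⟨e⁻¹ * w, 1, one_mem _, ?_⟩
    rw [mul_one]
    show galU K γ e = e ^ (c₀ + p) * (e⁻¹ * w) ^ p
    rw [h0, mul_pow, pow_add, inv_pow]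
    group

variable (p : ℕ) [Fact p.Prime] (K : Type*) [Field K] [NumberField K]
  [IsCyclotomicExtension {p} ℚ K]

/-- `p ∤ sqExp p K γ`. -/
theorem not_dvd_sqExp (γ : K ≃ₐ[ℚ] K) : ¬ p ∣ sqExp p K γ := by
  intro hdvd
  have h0 : sqExp p K γ = 0 :=
    Nat.eq_zero_of_dvd_of_lt hdvd (ZMod.val_lt _)
  unfold sqExp at h0
  rw [ZMod.val_eq_zero] at h0
  have h1 : chi p K γ ≠ 0 := _root_.Units.ne_zero _
  exact h1 (pow_eq_zero_iff (two_ne_zero) |>.mp h0)

/-- Every unit in the `ω²`-eigenspace modulo `p`-th powers is `u'^k w^p t` with `t` a root of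
unity (statement of `Units.exists_decomp`, with `Units.exists_lift_not_sq_dvd` as hypothesis). -/
theorem exists_decomp_of_lift (hp5 : 5 ≤ p) (ε : (𝓞 K)ˣ)
    (heig : ∀ σ : K ≃ₐ[ℚ] K, ∃ w : (𝓞 K)ˣ,
      σ ((ε : 𝓞 K) : K) = ((ε : 𝓞 K) : K) ^ sqExp p K σ * ((w : 𝓞 K) : K) ^ p)
    (hlift : ∀ c₀ : ℕ, ¬ p ∣ c₀ →
      ∃ c : ℕ, (c = c₀ ∨ c = c₀ + p) ∧ ¬ p ^ 2 ∣ ∑ i ∈ Finset.range ((p - 1) / 2), c ^ i) :
    ∃ (k : ℕ) (w t : (𝓞 K)ˣ), t ∈ NumberField.Units.torsion K ∧
      (ε : 𝓞 K) = uPrime p K ^ k * (w : 𝓞 K) ^ p * (t : 𝓞 K) := by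
  have hpr : p.Prime := Fact.out
  have hp3 : 3 ≤ p := by omega
  have hm2 : 2 ≤ (p - 1) / 2 := by omega
  obtain ⟨γ, hγ⟩ := exists_gal_generator p K
  obtain ⟨c, hc, hcS⟩ := hlift (sqExp p K γ) (not_dvd_sqExp p K γ)
  obtain ⟨u₀, hu₀⟩ := exists_minkowski_unit p K hp5 γ hγ
  have hiter : ∀ (i : ℕ) (e : (𝓞 K)ˣ),
      (⇑(galU K γ).toMonoidHom)^[i] e = galU K (γ ^ i) e := fun i e =>
    (galU_pow_apply K γ i e).symm
  have key := lemmaX_mul (E := (𝓞 K)ˣ) (NumberField.Units.torsion K)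
    (fun e n hn he => by
      rw [NumberField.Units.torsion, CommGroup.mem_torsion] at he ⊢
      exact he.of_pow hn.ne')
    (galU K γ).toMonoidHom
    (fun t ht => by
      rw [NumberField.Units.torsion, CommGroup.mem_torsion] at ht ⊢
      exact MonoidHom.isOfFinOrder _ ht)
    p hpr ((p - 1) / 2) hm2 c
    (fun e => by
      simp only [hiter]
      exact norm_mem_torsion p K hp3 γ hγ e)
    u₀
    (by
      simp only [hiter]
      exact Subgroup.finiteIndex_of_le le_sup_left)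
    hcS ε (isUnit_uPrime p K).unit
    (eigen_units K γ p _ c hc ε (heig γ))
    (eigen_units K γ p _ c hc _ (by
      obtain ⟨w, hw⟩ := uPrime_eigen p K hp5 γ
      exact ⟨w, by rw [IsUnit.unit_spec]; exact hw⟩))
    (by
      rintro ⟨w, t, ht, h⟩
      apply uPrime_not_torsion_mul_pow p K hp5
      refine ⟨w, t, ht, ?_⟩
      have := congrArg (fun x : (𝓞 K)ˣ => (x : 𝓞 K)) h
      simpa using this)
  obtain ⟨k, w, t, ht, h⟩ := key
  refine ⟨k, w, t, ht, ?_⟩
  have := congrArg (fun x : (𝓞 K)ˣ => (x : 𝓞 K)) h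
  simpa using this

end Fermat.Agent.S14.Thaine.UnitsC9
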